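/-
GATE-Z (S15, Mazur block) / node (UNIP), abstract core (helper10).  Mathlib only.

`G` a group acting additively on `V`, `I ≤ G` ("inertia at `p`"), `W ≤ V` a finite `I`-stable
subgroup such that

* (hss)  `(σ - 1)² = 0` on `W` for every `σ ∈ I`   (spelled `σ • σ • w + w = σ • w + σ • w`),
* (hcyc) the image of `I` in `Aut W` is cyclic: `∃ τ ∈ I, ∀ σ ∈ I, ∃ n : ℤ, σ = τ ^ n` on `W`.

Then `#W ≤ (#(W ⊓ V^I))²` (`card_le_card_inf_inv_sq`): `N := τ - 1` has `N² = 0`, so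
`im N ⊆ ker N = W ⊓ V^I` and `#W = #ker N · #im N`.  For `r`-groups: `ℓ(W) ≤ 2 ℓ(W^I)`
(`le_two_mul_of_card_eq_pow`).

Also the unipotent power formula `σ ^ n • v = v + n • (σ • v - v)` (`pow_smul_eq`) and
`σ ^ m • v = v` on `m`-torsion (`pow_smul_eq_self`).
-/
import Mathlib

set_option autoImplicit false

namespace Fermat.Agent.GZ.Unip.Abs

variable {G : Type*} [Group G] {V : Type*} [AddCommGroup V] [DistribMulAction G V]

/-- the invariants `V^I` of a subgroup `I ≤ G` -/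
def inv (I : Subgroup G) (V : Type*) [AddCommGroup V] [DistribMulAction G V] : AddSubgroup V where
  carrier := {v | ∀ σ ∈ I, σ • v = v}
  zero_mem' := fun σ _ => smul_zero σ
  add_mem' := by
    intro a b ha hb σ hσ
    rw [smul_add, ha σ hσ, hb σ hσ]
  neg_mem' := by
    intro a ha σ hσ
    rw [smul_neg, ha σ hσ]

theorem mem_inv {I : Subgroup G} {v : V} : v ∈ inv I V ↔ ∀ σ ∈ I, σ • v = v := Iff.rfl

/-! ### unipotent elements -/

/-- `(σ - 1)² = 0` at `v` implies `σ ^ n • v = v + n • (σ • v - v)` -/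
theorem pow_smul_eq (σ : G) (v : V) (h : σ • σ • v + v = σ • v + σ • v) (n : ℕ) :
    σ ^ n • v = v + n • (σ • v - v) := by
  have h1 : σ • (σ • v - v) = σ • v - v := by
    rw [smul_sub, sub_eq_sub_iff_add_eq_add, h]
  induction n with
  | zero => simp
  | succ k ih =>
    rw [pow_succ', mul_smul, ih, smul_add, smul_comm σ k, h1, succ_nsmul]
    abel

/-- a unipotent element acts trivially through its `m`-th power on `m`-torsion -/
theorem pow_smul_eq_self (σ : G) (v : V) (h : σ • σ • v + v = σ • v + σ • v) (m : ℕ)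
    (hm : m • (σ • v - v) = 0) : σ ^ m • v = v := by
  rw [pow_smul_eq σ v h, hm, add_zero]

/-- invariance under `τ` gives invariance under `τ ^ n`, `n : ℤ` -/
theorem zpow_smul_eq_self (τ : G) (v : V) (h : τ • v = v) (n : ℤ) : τ ^ n • v = v := by
  have h' : τ⁻¹ • v = v := by
    rw [inv_smul_eq_iff, h]
  have hn : ∀ k : ℕ, τ ^ k • v = v := by
    intro k
    induction k with
    | zero => simp
    | succ k ih => rw [pow_succ, mul_smul, h, ih]
  have hn' : ∀ k : ℕ, τ⁻¹ ^ k • v = v := by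
    intro k
    induction k with
    | zero => simp
    | succ k ih => rw [pow_succ, mul_smul, h', ih]
  obtain ⟨k, rfl | rfl⟩ := n.eq_nat_or_neg
  · rw [zpow_natCast, hn]
  · rw [zpow_neg, zpow_natCast, ← inv_pow, hn']

/-! ### the half-length bound -/

section Half

variable (I : Subgroup G) (W : AddSubgroup V)

/-- the map `τ - 1 : W → V` -/
def tauSub (τ : G) : ↥W →+ V where
  toFun w := τ • (w : V) - (w : V)
  map_zero' := by
    show τ • ((0 : ↥W) : V) - ((0 : ↥W) : V) = 0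
    rw [AddSubgroup.coe_zero, smul_zero, sub_zero]
  map_add' a b := by
    show τ • ((a + b : ↥W) : V) - ((a + b : ↥W) : V) = _
    rw [AddSubgroup.coe_add, smul_add]
    abel

theorem tauSub_apply (τ : G) (w : ↥W) : tauSub W τ w = τ • (w : V) - (w : V) := rfl

theorem mem_ker_tauSub {τ : G} {w : ↥W} : w ∈ (tauSub W τ).ker ↔ τ • (w : V) = (w : V) := by
  rw [AddMonoidHom.mem_ker, tauSub_apply, sub_eq_zero]

/-- **(UNIP), abstract form**: `#W ≤ (#(W ⊓ V^I))²`. -/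
theorem card_le_card_inf_inv_sq [Finite ↥W]
    (hstab : ∀ σ ∈ I, ∀ w ∈ W, σ • w ∈ W)
    (hss : ∀ σ ∈ I, ∀ w ∈ W, σ • σ • w + w = σ • w + σ • w)
    (hcyc : ∃ τ ∈ I, ∀ σ ∈ I, ∃ n : ℤ, ∀ w ∈ W, σ • w = τ ^ n • w) :
    Nat.card ↥W ≤ Nat.card ↥(W ⊓ inv I V) ^ 2 := by
  obtain ⟨τ, hτ, hgen⟩ := hcyc
  set f := tauSub W τ with hf
  -- `#W = #ker · #range`
  have h1 : Nat.card ↥f.ker * Nat.card ↥f.range = Nat.card ↥W := by
    rw [← AddSubgroup.index_ker, AddSubgroup.card_mul_index]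
  -- `range ↪ ker`
  have hrange : ∀ x : ↥f.range, ∃ k : ↥f.ker, ((k : ↥W) : V) = (x : V) := by
    rintro ⟨x, w, rfl⟩
    have hx : f w ∈ W := W.sub_mem (hstab τ hτ w w.2) w.2
    refine ⟨⟨⟨f w, hx⟩, ?_⟩, rfl⟩
    rw [mem_ker_tauSub W]
    show τ • (τ • (w : V) - (w : V)) = τ • (w : V) - (w : V)
    rw [smul_sub, sub_eq_sub_iff_add_eq_add, hss τ hτ w w.2]
  choose g hg using hrange
  have hginj : Function.Injective g := by
    intro x y hxy
    apply Subtype.ext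
    rw [← hg x, ← hg y, hxy]
  have h2 : Nat.card ↥f.range ≤ Nat.card ↥f.ker := Nat.card_le_card_of_injective g hginj
  -- `ker ↪ W ⊓ V^I`
  have hker : ∀ k : ↥f.ker, ((k : ↥W) : V) ∈ W ⊓ inv I V := by
    intro k
    refine ⟨(k : ↥W).2, fun σ hσ => ?_⟩
    obtain ⟨n, hn⟩ := hgen σ hσ
    rw [hn _ (k : ↥W).2]
    exact zpow_smul_eq_self τ _ ((mem_ker_tauSub W).1 k.2) n
  have : Finite ↥(W ⊓ inv I V) :=
    Finite.of_injective (fun x : ↥(W ⊓ inv I V) => (⟨x.1, x.2.1⟩ : ↥W))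
      (fun x y hxy => Subtype.ext (congrArg (fun z : ↥W => (z : V)) hxy))
  have h3 : Nat.card ↥f.ker ≤ Nat.card ↥(W ⊓ inv I V) := by
    refine Nat.card_le_card_of_injective (fun k => ⟨((k : ↥W) : V), hker k⟩) ?_
    intro x y hxy
    apply Subtype.ext
    apply Subtype.ext
    exact congrArg (fun z : ↥(W ⊓ inv I V) => (z : V)) hxy
  calc Nat.card ↥W = Nat.card ↥f.ker * Nat.card ↥f.range := h1.symm
    _ ≤ Nat.card ↥f.ker * Nat.card ↥f.ker := Nat.mul_le_mul_left _ h2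
    _ ≤ Nat.card ↥(W ⊓ inv I V) * Nat.card ↥(W ⊓ inv I V) := Nat.mul_le_mul h3 h3
    _ = Nat.card ↥(W ⊓ inv I V) ^ 2 := (sq _).symm

/-- **(UNIP), length form**: for `r`-groups, `ℓ(W) ≤ 2 ℓ(W^I)`. -/
theorem le_two_mul_of_card_eq_pow [Finite ↥W]
    (hstab : ∀ σ ∈ I, ∀ w ∈ W, σ • w ∈ W)
    (hss : ∀ σ ∈ I, ∀ w ∈ W, σ • σ • w + w = σ • w + σ • w)
    (hcyc : ∃ τ ∈ I, ∀ σ ∈ I, ∃ n : ℤ, ∀ w ∈ W, σ • w = τ ^ n • w)
    {r a b : ℕ} (hr : 2 ≤ r) (ha : Nat.card ↥W = r ^ a) (hb : Nat.card ↥(W ⊓ inv I V) = r ^ b) :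
    a ≤ 2 * b := by
  have h := card_le_card_inf_inv_sq I W hstab hss hcyc
  rw [ha, hb, ← pow_mul, mul_comm] at h
  exact (Nat.pow_le_pow_iff_right hr).1 h

/-- the case `W = ⊤` -/
theorem card_le_card_inv_sq [Finite V]
    (hss : ∀ σ ∈ I, ∀ v : V, σ • σ • v + v = σ • v + σ • v)
    (hcyc : ∃ τ ∈ I, ∀ σ ∈ I, ∃ n : ℤ, ∀ v : V, σ • v = τ ^ n • v) :
    Nat.card V ≤ Nat.card ↥(inv I V) ^ 2 := by
  have h := card_le_card_inf_inv_sq I (⊤ : AddSubgroup V) (fun _ _ _ _ => AddSubgroup.mem_top _)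
    (fun σ hσ w _ => hss σ hσ w)
    (by
      obtain ⟨τ, hτ, hgen⟩ := hcyc
      exact ⟨τ, hτ, fun σ hσ => (hgen σ hσ).imp fun n hn w _ => hn w⟩)
  rw [top_inf_eq] at h
  rwa [Nat.card_congr (AddSubgroup.topEquiv (G := V)).toEquiv] at h

end Half

/-! ### the action on a stable subgroup as a homomorphism to `Equiv.Perm` -/

section SubPerm

variable (W : AddSubgroup V) (hW : ∀ σ : G, ∀ w ∈ W, σ • w ∈ W)

/-- the action of `G` on a `G`-stable subgroup, as a homomorphism `G →* Equiv.Perm W` -/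
def subPerm : G →* Equiv.Perm ↥W where
  toFun σ :=
    { toFun := fun w => ⟨σ • (w : V), hW σ w w.2⟩
      invFun := fun w => ⟨σ⁻¹ • (w : V), hW σ⁻¹ w w.2⟩
      left_inv := fun w => Subtype.ext (inv_smul_smul σ (w : V))
      right_inv := fun w => Subtype.ext (smul_inv_smul σ (w : V)) }
  map_one' := by
    refine Equiv.ext fun w => Subtype.ext ?_
    show (1 : G) • (w : V) = (w : V)
    rw [one_smul]
  map_mul' σ τ := by
    refine Equiv.ext fun w => Subtype.ext ?_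
    show (σ * τ) • (w : V) = σ • τ • (w : V)
    rw [mul_smul]

theorem coe_subPerm_apply (σ : G) (w : ↥W) : ((subPerm W hW σ w : ↥W) : V) = σ • (w : V) := rfl

theorem subPerm_eq_one_iff (σ : G) : subPerm W hW σ = 1 ↔ ∀ w ∈ W, σ • w = w := by
  constructor
  · intro h w hw
    have := congrArg (fun e : Equiv.Perm ↥W => ((e ⟨w, hw⟩ : ↥W) : V)) h
    exact this
  · intro h
    refine Equiv.ext fun w => Subtype.ext ?_
    exact h w w.2

theorem subPerm_eq_zpow_iff (σ τ : G) (n : ℤ) :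
    subPerm W hW σ = subPerm W hW τ ^ n ↔ ∀ w ∈ W, σ • w = τ ^ n • w := by
  rw [← map_zpow]
  constructor
  · intro h w hw
    have := congrArg (fun e : Equiv.Perm ↥W => ((e ⟨w, hw⟩ : ↥W) : V)) h
    exact this
  · intro h
    refine Equiv.ext fun w => Subtype.ext ?_
    exact h w w.2

end SubPerm

end Fermat.Agent.GZ.Unip.Abs
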