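/-
GATE-Z (S15, Mazur block) / node (UNIP), the `G_ℚ`-instance (helper10).

`V` an additive `G_ℚ`-module, `W ≤ V` a finite `G_ℚ`-stable subgroup (e.g. `J[r^k]`, or its
`ε`-part for the Hecke action), `P` a place of `ℚ̄` over `q`, `r ≠ q` a prime such that

* (hm)     `r ^ k • w = 0` on `W`,
* (hlevel) the action on `W` factors through a finite level,
* (hss)    `(σ - 1)² = 0` on `W` for `σ ∈ I_P`  (`σ • σ • w + w = σ • w + σ • w`).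

Then the image of `I_P` in `Perm W` is an `r`-group (`σ ^ (r^k) = 1 + r^k (σ - 1) = 1`), hence
cyclic by helper29's `TamePQuot.exists_inertia_generator_of_isPGroup` (`exists_generator`), and
`#W ≤ (#(W ⊓ V^{I_P}))²` (`card_le_card_inf_inv_sq`), i.e. `ℓ(W) ≤ 2 ℓ(W^{I_P})`
(`le_two_mul_of_card_eq_pow`).
-/
import Mathlib
import Fermat.Agent.GZ.Unip.Abs
import Fermat.Agent.GP.Loc.TamePQuot

set_option autoImplicit false

namespace Fermat.Agent.GZ.Unip.Inertia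

open Fermat.Agent.GZ.Unip.Abs

/-- `ℚ̄` -/
local notation "Qb" => AlgebraicClosure ℚ
/-- `G_ℚ` -/
local notation "GQ" => (AlgebraicClosure ℚ ≃ₐ[ℚ] AlgebraicClosure ℚ)

variable {V : Type*} [AddCommGroup V] [DistribMulAction GQ V]

/-- **tame inertia is cyclic on `r`-power torsion with unipotent inertia action** -/
theorem exists_generator (P : ValuationSubring Qb) {q : ℕ} (hq : q.Prime)
    (hP : P.LiesOverPrime q) (r : ℕ) [Fact r.Prime] (hrq : r ≠ q) (k : ℕ)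
    (W : AddSubgroup V) (hW : ∀ σ : GQ, ∀ w ∈ W, σ • w ∈ W)
    (hm : ∀ w ∈ W, r ^ k • w = 0)
    (hlevel : ∃ L : IntermediateField ℚ Qb, FiniteDimensional ℚ L ∧
      ∀ σ : GQ, (∀ x ∈ L, σ x = x) → ∀ w ∈ W, σ • w = w)
    (hss : ∀ σ ∈ P.inertiaSubgroupIn ℚ, ∀ w ∈ W, σ • σ • w + w = σ • w + σ • w) :
    ∃ τ ∈ P.inertiaSubgroupIn ℚ, ∀ σ ∈ P.inertiaSubgroupIn ℚ, ∃ n : ℤ,
      ∀ w ∈ W, σ • w = τ ^ n • w := by
  have hf : ∃ L : IntermediateField ℚ Qb, FiniteDimensional ℚ L ∧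
      ∀ σ : GQ, (∀ x ∈ L, σ x = x) → subPerm W hW σ = 1 := by
    obtain ⟨L, hL, h⟩ := hlevel
    exact ⟨L, hL, fun σ hσ => (subPerm_eq_one_iff W hW σ).2 (h σ hσ)⟩
  have hp : IsPGroup r ((P.inertiaSubgroupIn ℚ).map (subPerm W hW)) := by
    rintro ⟨g, σ, hσ, rfl⟩
    refine ⟨k, Subtype.ext ?_⟩
    show subPerm W hW σ ^ r ^ k = 1
    rw [← map_pow, subPerm_eq_one_iff]
    intro w hw
    refine pow_smul_eq_self σ w (hss σ hσ w hw) (r ^ k) ?_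
    exact hm _ (W.sub_mem (hW σ w hw) hw)
  obtain ⟨τ, hτ, hgen⟩ := Fermat.Agent.GP.Loc.TamePQuot.exists_inertia_generator_of_isPGroup P hq
    hP (subPerm W hW) hf r hrq hp
  refine ⟨τ, hτ, fun σ hσ => ?_⟩
  obtain ⟨n, hn⟩ := hgen σ hσ
  exact ⟨n, (subPerm_eq_zpow_iff W hW σ τ n).1 hn⟩

/-- **(UNIP)**: `#W ≤ (#(W ⊓ V^{I_P}))²`. -/
theorem card_le_card_inf_inv_sq (P : ValuationSubring Qb) {q : ℕ} (hq : q.Prime)
    (hP : P.LiesOverPrime q) (r : ℕ) [Fact r.Prime] (hrq : r ≠ q) (k : ℕ)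
    (W : AddSubgroup V) [Finite ↥W] (hW : ∀ σ : GQ, ∀ w ∈ W, σ • w ∈ W)
    (hm : ∀ w ∈ W, r ^ k • w = 0)
    (hlevel : ∃ L : IntermediateField ℚ Qb, FiniteDimensional ℚ L ∧
      ∀ σ : GQ, (∀ x ∈ L, σ x = x) → ∀ w ∈ W, σ • w = w)
    (hss : ∀ σ ∈ P.inertiaSubgroupIn ℚ, ∀ w ∈ W, σ • σ • w + w = σ • w + σ • w) :
    Nat.card ↥W ≤ Nat.card ↥(W ⊓ inv (P.inertiaSubgroupIn ℚ) V) ^ 2 :=
  Abs.card_le_card_inf_inv_sq (P.inertiaSubgroupIn ℚ) W (fun σ _ w hw => hW σ w hw) hss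
    (exists_generator P hq hP r hrq k W hW hm hlevel hss)

/-- **(UNIP), length form**: `ℓ(W) ≤ 2 ℓ(W^{I_P})`. -/
theorem le_two_mul_of_card_eq_pow (P : ValuationSubring Qb) {q : ℕ} (hq : q.Prime)
    (hP : P.LiesOverPrime q) (r : ℕ) [Fact r.Prime] (hrq : r ≠ q) (k : ℕ)
    (W : AddSubgroup V) [Finite ↥W] (hW : ∀ σ : GQ, ∀ w ∈ W, σ • w ∈ W)
    (hm : ∀ w ∈ W, r ^ k • w = 0)
    (hlevel : ∃ L : IntermediateField ℚ Qb, FiniteDimensional ℚ L ∧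
      ∀ σ : GQ, (∀ x ∈ L, σ x = x) → ∀ w ∈ W, σ • w = w)
    (hss : ∀ σ ∈ P.inertiaSubgroupIn ℚ, ∀ w ∈ W, σ • σ • w + w = σ • w + σ • w)
    {a b : ℕ} (ha : Nat.card ↥W = r ^ a)
    (hb : Nat.card ↥(W ⊓ inv (P.inertiaSubgroupIn ℚ) V) = r ^ b) : a ≤ 2 * b :=
  Abs.le_two_mul_of_card_eq_pow (P.inertiaSubgroupIn ℚ) W (fun σ _ w hw => hW σ w hw) hss
    (exists_generator P hq hP r hrq k W hW hm hlevel hss) (Fact.out : r.Prime).two_le ha hb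

end Fermat.Agent.GZ.Unip.Inertia
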