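/-
GATE-Z (S15, Mazur block) / node (UNIP), the instance on `J₀(N)` (helper10).

`N` a level, `q ∥ N` a prime, `A` a place of `ℚ̄` over `q`, `I_A` its inertia group.

* `ss_torsion` : `(σ - 1)² = 0` on `J₀(N)(ℚ̄)[m]`, `q ∤ m`, `σ ∈ I_A` — the semistability gate of
  S34 (`GK.Tate.ssGateAux` + helper62's auxiliary-level descent) transported along helper18's
  Kummer isomorphism `Kum_m(F_N) ≃ J₀(N)[m]` (Galois-equivariant by helper83);
* `exists_generator` : the image of `I_A` on `J₀(N)[r^k]` (`r ≠ q` prime) is cyclic;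
* `card_le_card_inf_inv_sq` : **(UNIP)** for every finite-or-not `G_ℚ`-stable subgroup
  `W ≤ J₀(N)[r^k]` (e.g. the `ε`-part for the Hecke action): `#W ≤ (#(W ⊓ J^{I_A}))²`;
* `le_two_mul_of_card_eq_pow` : the length form `ℓ(W) ≤ 2 ℓ(W^{I_A})`;
* `card_torsion_le_card_inv_sq` : the case `W = J₀(N)[r^k]`.
-/
import Mathlib
import Fermat.Agent.GZ.Unip.Inertia
import Fermat.Agent.GH.KummerEquivariant
import Fermat.Agent.GH.TorsionLevel
import Fermat.Agent.GK.Tate.S34Aux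
import Fermat.Agent.GK.SS.FibreFactsProof

set_option autoImplicit false

open AlgebraicCurve ModularCurve

namespace Fermat.Agent.GZ.Unip.JZ

open Fermat.Agent.GZ.Unip.Abs Fermat.Agent.GJ.KumGroup Fermat.Agent.GJ.Kum.KumType
open Fermat.Agent.GH.TorsionCount Fermat.Agent.GH.KummerEquivariant

/-- `ℚ̄` -/
local notation "Qb" => AlgebraicClosure ℚ
/-- `G_ℚ` -/
local notation "GQ" => (AlgebraicClosure ℚ ≃ₐ[ℚ] AlgebraicClosure ℚ)

variable (N : ℕ) [NeZero N]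

/-- the semistability gate at every level `N`, prime `q ∥ N` and modulus `m` prime to `q` -/
theorem ssGate {q m : ℕ} (hq : q.Prime) (hqN : q ∣ N) (hq2 : ¬ q ^ 2 ∣ N) (hqm : ¬ q ∣ m) :
    Fermat.Agent.GK.Tate.SSGate N q m :=
  Fermat.Agent.GK.SS.AuxDescent.ssGate_of_aux
    (fun N' _ q' m' hq' hqN' hq2' hqm' h2 h3 =>
      Fermat.Agent.GK.SS.Modular.ssGateAux N' q' m' hq' hqN' hq2' hqm' h2 h3)
    N q m hq hqN hq2 hqm

/-- **`(σ - 1)² = 0` on `J₀(N)[m]`** for `σ` in an inertia group over `q ∥ N`, `q ∤ m`. -/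
theorem ss_torsion {q m : ℕ} (hq : q.Prime) (hqN : q ∣ N) (hq2 : ¬ q ^ 2 ∣ N) (hqm : ¬ q ∣ m)
    (A : ValuationSubring Qb) (hA : A.LiesOverPrime q) {σ : GQ} (hσ : σ ∈ A.inertiaSubgroupIn ℚ)
    (x : JZero N) (hx : (m : ℤ) • x = 0) : σ • σ • x + x = σ • x + σ • x := by
  have hm : m ≠ 0 := by
    rintro rfl
    exact hqm (dvd_zero q)
  have : NeZero m := ⟨hm⟩
  have hmem : x ∈ Pic0.torsion Qb (modularFunctionFieldBar N) m := Pic0.mem_torsion.2 hx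
  obtain ⟨y, hy⟩ := (kummerEquivFK N m).surjective ⟨x, hmem⟩
  have hxy : x = ((kummerEquivFK N m y : Pic0.torsion Qb (modularFunctionFieldBar N) m) :
      JZero N) := by rw [hy]
  have hgate := (Fermat.Agent.GK.Tate.ssGate_iff.1 (ssGate N hq hqN hq2 hqm)) A hA σ hσ y
  have h1 := congrArg (fun z => ((kummerEquivFK N m z :
    Pic0.torsion Qb (modularFunctionFieldBar N) m) : JZero N)) hgate
  simp only [map_add, AddSubgroup.coe_add] at h1
  rw [coe_kummerEquivFK_gal, coe_kummerEquivFK_gal, ← hxy] at h1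
  exact h1

variable {N}

omit [NeZero N] in
/-- the torsion subgroups are Galois-stable -/
theorem smul_mem_torsion {m : ℕ} (σ : GQ) {x : JZero N} (hx : (m : ℤ) • x = 0) :
    (m : ℤ) • (σ • x) = 0 := by
  have h := map_zsmul (DistribSMul.toAddMonoidHom (JZero N) σ) (m : ℤ) x
  rw [DistribSMul.toAddMonoidHom_apply, DistribSMul.toAddMonoidHom_apply] at h
  rw [← h, hx, smul_zero]

variable (N)

/-- **the image of inertia at `q ∥ N` on a subgroup of `J₀(N)[r^k]` is cyclic** -/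
theorem exists_generator {q : ℕ} (hq : q.Prime) (hqN : q ∣ N) (hq2 : ¬ q ^ 2 ∣ N)
    (A : ValuationSubring Qb) (hA : A.LiesOverPrime q) (r : ℕ) [Fact r.Prime] (hrq : r ≠ q)
    (k : ℕ) (W : AddSubgroup (JZero N)) (hW : ∀ σ : GQ, ∀ w ∈ W, σ • w ∈ W)
    (htors : ∀ w ∈ W, ((r ^ k : ℕ) : ℤ) • w = 0) :
    ∃ τ ∈ A.inertiaSubgroupIn ℚ, ∀ σ ∈ A.inertiaSubgroupIn ℚ, ∃ n : ℤ,
      ∀ w ∈ W, σ • w = τ ^ n • w := by
  have hr : r.Prime := Fact.out
  have hqm : ¬ q ∣ r ^ k := fun h =>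
    hrq ((Nat.prime_dvd_prime_iff_eq hq hr).1 (hq.dvd_of_dvd_pow h)).symm
  refine Inertia.exists_generator A hq hA r hrq k W hW ?_ ?_ ?_
  · intro w hw
    have := htors w hw
    rwa [natCast_zsmul] at this
  · obtain ⟨E, hE, h⟩ := Fermat.Agent.GH.TorsionLevel.exists_level_torsion N (r ^ k)
      (pow_ne_zero k hr.ne_zero)
    exact ⟨E, hE, fun σ hσ w hw => h σ hσ w (htors w hw)⟩
  · intro σ hσ w hw
    exact ss_torsion N hq hqN hq2 hqm A hA hσ w (htors w hw)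

/-- **(UNIP)**: `#W ≤ (#(W ⊓ J^{I_A}))²` for every `G_ℚ`-stable subgroup `W ≤ J₀(N)[r^k]`,
`A` over `q ∥ N`, `r ≠ q`. -/
theorem card_le_card_inf_inv_sq {q : ℕ} (hq : q.Prime) (hqN : q ∣ N) (hq2 : ¬ q ^ 2 ∣ N)
    (A : ValuationSubring Qb) (hA : A.LiesOverPrime q) (r : ℕ) [Fact r.Prime] (hrq : r ≠ q)
    (k : ℕ) (W : AddSubgroup (JZero N)) (hW : ∀ σ : GQ, ∀ w ∈ W, σ • w ∈ W)
    (htors : ∀ w ∈ W, ((r ^ k : ℕ) : ℤ) • w = 0) :
    Nat.card ↥W ≤ Nat.card ↥(W ⊓ inv (A.inertiaSubgroupIn ℚ) (JZero N)) ^ 2 := by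
  have hr : r.Prime := Fact.out
  have hqm : ¬ q ∣ r ^ k := fun h =>
    hrq ((Nat.prime_dvd_prime_iff_eq hq hr).1 (hq.dvd_of_dvd_pow h)).symm
  have : Finite ↥(Pic0.torsion Qb (modularFunctionFieldBar N) (r ^ k)) :=
    finite_torsion N (r ^ k) (pow_ne_zero k hr.ne_zero)
  have : Finite ↥W :=
    Finite.of_injective
      (fun w : ↥W => (⟨(w : JZero N), Pic0.mem_torsion.2 (htors w w.2)⟩ :
        ↥(Pic0.torsion Qb (modularFunctionFieldBar N) (r ^ k))))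
      (fun a b hab => Subtype.ext (congrArg (fun z :
        ↥(Pic0.torsion Qb (modularFunctionFieldBar N) (r ^ k)) => (z : JZero N)) hab))
  exact Abs.card_le_card_inf_inv_sq (A.inertiaSubgroupIn ℚ) W (fun σ _ w hw => hW σ w hw)
    (fun σ hσ w hw => ss_torsion N hq hqN hq2 hqm A hA hσ w (htors w hw))
    (exists_generator N hq hqN hq2 A hA r hrq k W hW htors)

/-- **(UNIP), length form**: `ℓ(W) ≤ 2 ℓ(W^{I_A})`. -/
theorem le_two_mul_of_card_eq_pow {q : ℕ} (hq : q.Prime) (hqN : q ∣ N) (hq2 : ¬ q ^ 2 ∣ N)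
    (A : ValuationSubring Qb) (hA : A.LiesOverPrime q) (r : ℕ) [Fact r.Prime] (hrq : r ≠ q)
    (k : ℕ) (W : AddSubgroup (JZero N)) (hW : ∀ σ : GQ, ∀ w ∈ W, σ • w ∈ W)
    (htors : ∀ w ∈ W, ((r ^ k : ℕ) : ℤ) • w = 0)
    {a b : ℕ} (ha : Nat.card ↥W = r ^ a)
    (hb : Nat.card ↥(W ⊓ inv (A.inertiaSubgroupIn ℚ) (JZero N)) = r ^ b) : a ≤ 2 * b := by
  have h := card_le_card_inf_inv_sq N hq hqN hq2 A hA r hrq k W hW htors
  rw [ha, hb, ← pow_mul, mul_comm] at h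
  exact (Nat.pow_le_pow_iff_right (Fact.out : r.Prime).two_le).1 h

/-- the case `W = J₀(N)[r^k]` -/
theorem card_torsion_le_card_inv_sq {q : ℕ} (hq : q.Prime) (hqN : q ∣ N) (hq2 : ¬ q ^ 2 ∣ N)
    (A : ValuationSubring Qb) (hA : A.LiesOverPrime q) (r : ℕ) [Fact r.Prime] (hrq : r ≠ q)
    (k : ℕ) :
    Nat.card ↥(Pic0.torsion Qb (modularFunctionFieldBar N) (r ^ k)) ≤
      Nat.card ↥((Pic0.torsion Qb (modularFunctionFieldBar N) (r ^ k)) ⊓
        inv (A.inertiaSubgroupIn ℚ) (JZero N)) ^ 2 := by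
  refine card_le_card_inf_inv_sq N hq hqN hq2 A hA r hrq k
    (Pic0.torsion Qb (modularFunctionFieldBar N) (r ^ k)) ?_ ?_
  · intro σ w hw
    exact Pic0.mem_torsion.2 (smul_mem_torsion σ (Pic0.mem_torsion.1 hw))
  · intro w hw
    exact Pic0.mem_torsion.1 hw

end Fermat.Agent.GZ.Unip.JZ
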