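/-
GATE-Z (S15, Mazur block) / node (UNIP), plug into helper20's PIN (`GZ/F/Pin.lean`, helper10):
the Eisenstein part `V_k = eisPart p S r k ⊆ J₀(p)[r^k]` satisfies

  `#V_k ≤ (#(V_k ⊓ J^{I_A}))²`        (`A ∣ p`, `r ≠ p`)

given (HGAL) `σ • T_q z = T_q (σ • z)` (helper42's node, a binder here).

* `HGal p`            : the (HGAL) statement at level `p`;
* `eisProd_smul`      : the Eisenstein products commute with the Galois action;
* `smul_mem_eisPart`  : `eisPart` is `G_ℚ`-stable;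
* `card_eisPart_le`   : (UNIP) for `eisPart`;  `le_two_mul_of_card_eisPart` : the length form.
-/
import Mathlib
import Fermat.Agent.GZ.Unip.JZero
import Fermat.Agent.GZ.F.Pin

set_option autoImplicit false

open AlgebraicCurve ModularCurve

namespace Fermat.Agent.GZ.Unip.EisPart

open Fermat.Agent.GZ.F Fermat.Agent.GZ.Unip.Abs

/-- `ℚ̄` -/
local notation "Qb" => AlgebraicClosure ℚ
/-- `G_ℚ` -/
local notation "GQ" => (AlgebraicClosure ℚ ≃ₐ[ℚ] AlgebraicClosure ℚ)

variable (p : ℕ) [NeZero p]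

/-- **(HGAL)** the Hecke operators commute with the Galois action on `J₀(p)(ℚ̄)` -/
def HGal : Prop :=
  ∀ (q : Nat.Primes) (σ : GQ) (z : JZero p),
    σ • heckeOperatorBar p q z = heckeOperatorBar p q (σ • z)

variable {p}

omit [NeZero p] in
theorem smul_zsmul' (σ : GQ) (n : ℤ) (z : JZero p) : σ • (n • z) = n • (σ • z) := by
  have h := map_zsmul (DistribSMul.toAddMonoidHom (JZero p) σ) n z
  rwa [DistribSMul.toAddMonoidHom_apply, DistribSMul.toAddMonoidHom_apply] at h

theorem eisOp_smul (hgal : HGal p) (q : Nat.Primes) (σ : GQ) (z : JZero p) :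
    eisOp p q (σ • z) = σ • eisOp p q z := by
  rw [eisOp_apply, eisOp_apply, smul_sub, hgal q σ z, smul_zsmul']

theorem eisProd_smul (hgal : HGal p) (l : List Nat.Primes) (σ : GQ) (z : JZero p) :
    eisProd p l (σ • z) = σ • eisProd p l z := by
  induction l generalizing z with
  | nil => rfl
  | cons q l ih =>
    have h1 : eisProd p (q :: l) = eisOp p q * eisProd p l := by
      unfold eisProd
      rw [List.map_cons, List.prod_cons]
    rw [h1, Module.End.mul_apply, Module.End.mul_apply, ih, eisOp_smul hgal]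

/-- the Eisenstein part is Galois-stable -/
theorem smul_mem_eisPart (hgal : HGal p) {S : Finset ℕ} {r k : ℕ} (σ : GQ) {x : JZero p}
    (hx : x ∈ eisPart p S r k) : σ • x ∈ eisPart p S r k := by
  obtain ⟨h1, N, hN⟩ := hx
  refine ⟨?_, N, fun l hl hgood => ?_⟩
  · have hz : σ • (0 : JZero p) = 0 := @smul_zero GQ (JZero p) _ _ σ
    have h := smul_zsmul' σ ((r ^ k : ℕ) : ℤ) x
    rw [natCast_zsmul, natCast_zsmul, h1, hz] at h
    exact h.symm
  · have hz : σ • (0 : JZero p) = 0 := @smul_zero GQ (JZero p) _ _ σ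
    rw [eisProd_smul hgal, hN l hl hgood, hz]

theorem zsmul_eq_zero_of_mem_eisPart {S : Finset ℕ} {r k : ℕ} {x : JZero p}
    (hx : x ∈ eisPart p S r k) : ((r ^ k : ℕ) : ℤ) • x = 0 := by
  rw [natCast_zsmul]
  exact hx.1

/-- **(UNIP) for the Eisenstein part**: `#V_k ≤ (#(V_k ⊓ J^{I_A}))²`. -/
theorem card_eisPart_le (hgal : HGal p) (hp : p.Prime) (A : ValuationSubring Qb)
    (hA : A.LiesOverPrime p) (r : ℕ) [Fact r.Prime] (hrp : r ≠ p) (S : Finset ℕ) (k : ℕ) :
    Nat.card ↥(eisPart p S r k) ≤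
      Nat.card ↥(eisPart p S r k ⊓ inv (A.inertiaSubgroupIn ℚ) (JZero p)) ^ 2 := by
  have hp2 : ¬ p ^ 2 ∣ p := by
    intro h
    have h1 : p ^ 2 ≤ p := Nat.le_of_dvd hp.pos h
    have h2 : p * 2 ≤ p * p := Nat.mul_le_mul_left p hp.two_le
    nlinarith [hp.two_le]
  exact JZ.card_le_card_inf_inv_sq p hp (dvd_refl p) hp2 A hA r hrp k (eisPart p S r k)
    (fun σ w hw => smul_mem_eisPart hgal σ hw) (fun w hw => zsmul_eq_zero_of_mem_eisPart hw)

/-- **(UNIP) for the Eisenstein part, length form** -/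
theorem le_two_mul_of_card_eisPart (hgal : HGal p) (hp : p.Prime) (A : ValuationSubring Qb)
    (hA : A.LiesOverPrime p) (r : ℕ) [Fact r.Prime] (hrp : r ≠ p) (S : Finset ℕ) (k : ℕ)
    {a b : ℕ} (ha : Nat.card ↥(eisPart p S r k) = r ^ a)
    (hb : Nat.card ↥(eisPart p S r k ⊓ inv (A.inertiaSubgroupIn ℚ) (JZero p)) = r ^ b) :
    a ≤ 2 * b := by
  have h := card_eisPart_le hgal hp A hA r hrp S k
  rw [ha, hb, ← pow_mul, mul_comm] at h
  exact (Nat.pow_le_pow_iff_right (Fact.out : r.Prime).two_le).1 h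

end Fermat.Agent.GZ.Unip.EisPart
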